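/-
PROJECT D (S48), part B, block B5, brick (E) [B-per] (helper5): equivariant primitives of weight-two
cusp forms on `Γ₁(M)` and the `ℂ`-linear period map `periodMap1 M` (twin of `S21/Primitive`).

Built on the normalised primitives `prim` of `Fermat.Agent.S22.Primitive`; the level-free lemmas of
`Fermat.Agent.S21.Primitive` are reused.
-/
import Mathlib
import Fermat.Prelude.Def_ModularCurve_PeriodMap
import Fermat.Agent.S22.Primitive
import Fermat.Agent.S21.Primitive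

set_option autoImplicit false

open UpperHalfPlane CongruenceSubgroup Filter Topology ModularCurve.Period
open Matrix.SpecialLinearGroup
open scoped MatrixGroups ModularForm

namespace Fermat.Agent.S48.B.Period.Primitive1

open Fermat.Agent.S22.Primitive Fermat.Agent.S21.Primitive

/-- `T ∈ Γ₁(M)`, hence `1` is a strict period of `Γ₁(M)`. -/
theorem one_mem_strictPeriods_Gamma1 (M : ℕ) :
    (1 : ℝ) ∈ (Subgroup.map (mapGL ℝ) (Gamma1 M)).strictPeriods := by
  have hT : ModularGroup.T ∈ Gamma1 M := by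
    rw [Gamma1_mem]
    simp [ModularGroup.T]
  rw [Subgroup.strictPeriods_eq_zmultiples_one_of_T_mem hT]
  exact AddSubgroup.mem_zmultiples (1 : ℝ)

variable {M : ℕ}

/-- A cusp form of level `Γ₁(M)` is cusp-like of period one. -/
theorem cuspLike_coe1 {k : ℤ} (f : CuspForm (Gamma1 M) k) : CuspLike 1 (⇑f ∘ ofComplex) :=
  cuspLike_of_cuspFormClass f one_pos (one_mem_strictPeriods_Gamma1 M)

/-- The canonical primitive of a weight-two cusp form on `Γ₁(M)`: `z ↦ -∫_z^{i∞} f`. -/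
noncomputable def primH1 (f : CuspForm (Gamma1 M) 2) (z : ℍ) : ℂ :=
  prim (⇑f ∘ ofComplex) 1 (z : ℂ)

theorem primH1_apply (f : CuspForm (Gamma1 M) 2) (z : ℍ) :
    primH1 f z = prim (⇑f ∘ ofComplex) 1 (z : ℂ) := rfl

theorem primH1_comp_ofComplex (f : CuspForm (Gamma1 M) 2) {z : ℂ} (hz : 0 < z.im) :
    (primH1 f ∘ ofComplex) z = prim (⇑f ∘ ofComplex) 1 z := by
  rw [Function.comp_apply, primH1_apply, ofComplex_apply_of_im_pos hz]

theorem hasDerivAt_primH1 (f : CuspForm (Gamma1 M) 2) (τ : ℍ) :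
    HasDerivAt (primH1 f ∘ ofComplex) (f τ) (τ : ℂ) := by
  have hz : 0 < (τ : ℂ).im := τ.im_pos
  have h1 := (prim_spec one_pos (cuspLike_coe1 f) 1).1 (τ : ℂ) hz
  simp only [Polynomial.eval_one, one_mul, Function.comp_apply, ofComplex_apply] at h1
  refine h1.congr_of_eventuallyEq ?_
  filter_upwards [isOpen_U.mem_nhds (show (τ : ℂ) ∈ U from hz)] with w hw
  exact primH1_comp_ofComplex f hw

theorem tendsto_primH1 (f : CuspForm (Gamma1 M) 2) : Tendsto (primH1 f) atImInfty (𝓝 0) := by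
  obtain ⟨E, hE, -, hEe⟩ := exists_cuspLike_eq_prim_one one_pos (cuspLike_coe1 f)
  refine (tendsto_atImInfty_of_cuspLike one_pos hE).congr fun z => ?_
  rw [primH1_apply, hEe (z : ℂ) z.im_pos]

/-- For every `δ ∈ SL(2, ℤ)`, `z ↦ primH1 f (δ • z)` has a limit at `i∞`. -/
theorem exists_tendsto_primH1_smul [NeZero M] (f : CuspForm (Gamma1 M) 2) (δ : SL(2, ℤ)) :
    ∃ L : ℂ, Tendsto (fun w : ℍ => primH1 f (δ • w)) atImInfty (𝓝 L) := by
  obtain ⟨W, hW, hper⟩ := Subgroup.IsArithmetic.exists_nat_mem_strictPeriods_conj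
    (Gamma1 M : Subgroup (GL (Fin 2) ℝ))
  have hWpos : (0 : ℝ) < (W : ℝ) := by exact_mod_cast hW
  set f' := CuspForm.translate f (mapGL ℝ δ) with hf'
  have hg : CuspLike 1 (⇑f ∘ ofComplex) := cuspLike_coe1 f
  have hg' : CuspLike (W : ℝ) (⇑f' ∘ ofComplex) := by
    refine cuspLike_of_cuspFormClass f' hWpos ?_
    have h := hper δ⁻¹
    rw [map_inv] at h
    exact h
  have hrel : ∀ z : ℂ, 0 < z.im →
      (1 : Polynomial ℂ).eval z * (⇑f' ∘ ofComplex) z =
      (1 : Polynomial ℂ).eval (((((δ 0 0 : ℤ) : ℝ) : ℂ) * z + (((δ 0 1 : ℤ) : ℝ) : ℂ)) /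
          ((((δ 1 0 : ℤ) : ℝ) : ℂ) * z + (((δ 1 1 : ℤ) : ℝ) : ℂ))) *
        (⇑f ∘ ofComplex) (((((δ 0 0 : ℤ) : ℝ) : ℂ) * z + (((δ 0 1 : ℤ) : ℝ) : ℂ)) /
          ((((δ 1 0 : ℤ) : ℝ) : ℂ) * z + (((δ 1 1 : ℤ) : ℝ) : ℂ))) *
        ((((((δ 1 0 : ℤ) : ℝ) : ℂ) * z + (((δ 1 1 : ℤ) : ℝ) : ℂ)) ^ 2)⁻¹) := by
    intro z hz
    have h1 : (f' : ℍ → ℂ) = (⇑f) ∣[(2 : ℤ)] (mapGL ℝ δ) := rfl
    have h2 := coe_smul_eq δ ⟨z, hz⟩
    simp only [Polynomial.eval_one, one_mul, Function.comp_apply]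
    rw [← h2, ofComplex_apply, ofComplex_apply_of_im_pos hz, h1, slash_two_apply]
  obtain ⟨C, hC⟩ := prim_mobius_sub_const one_pos hWpos hg hg' 1 1 _ _ _ _ (det_real δ) hrel
  obtain ⟨E, hE, -, hEe⟩ := exists_cuspLike_eq_prim_one hWpos hg'
  refine ⟨C, ?_⟩
  have h3 : Tendsto (fun w : ℍ => E (w : ℂ) + C) atImInfty (𝓝 (0 + C)) :=
    (tendsto_atImInfty_of_cuspLike hWpos hE).add_const C
  rw [zero_add] at h3
  refine h3.congr fun w => ?_
  have h4 := hC (w : ℂ) w.im_pos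
  rw [primH1_apply, coe_smul_eq, ← h4, hEe (w : ℂ) w.im_pos]
  ring

/-- `primH1 f` is an equivariant primitive for `Γ₁(M)`. -/
theorem isEquivariantPrimitive_primH1 (f : CuspForm (Gamma1 M) 2) :
    IsEquivariantPrimitive (Gamma1 M) (primH1 f) := by
  intro γ
  have hg : CuspLike 1 (⇑f ∘ ofComplex) := cuspLike_coe1 f
  have hrel : ∀ z : ℂ, 0 < z.im →
      (1 : Polynomial ℂ).eval z * (⇑f ∘ ofComplex) z =
      (1 : Polynomial ℂ).eval ((((((γ : SL(2, ℤ)) 0 0 : ℤ) : ℝ) : ℂ) * z +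
          ((((γ : SL(2, ℤ)) 0 1 : ℤ) : ℝ) : ℂ)) /
          (((((γ : SL(2, ℤ)) 1 0 : ℤ) : ℝ) : ℂ) * z + ((((γ : SL(2, ℤ)) 1 1 : ℤ) : ℝ) : ℂ))) *
        (⇑f ∘ ofComplex) ((((((γ : SL(2, ℤ)) 0 0 : ℤ) : ℝ) : ℂ) * z +
          ((((γ : SL(2, ℤ)) 0 1 : ℤ) : ℝ) : ℂ)) /
          (((((γ : SL(2, ℤ)) 1 0 : ℤ) : ℝ) : ℂ) * z + ((((γ : SL(2, ℤ)) 1 1 : ℤ) : ℝ) : ℂ))) *
        (((((((γ : SL(2, ℤ)) 1 0 : ℤ) : ℝ) : ℂ) * z +
          ((((γ : SL(2, ℤ)) 1 1 : ℤ) : ℝ) : ℂ)) ^ 2)⁻¹) := by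
    intro z hz
    have h1 : (⇑f) ∣[(2 : ℤ)] (mapGL ℝ (γ : SL(2, ℤ))) = ⇑f :=
      SlashInvariantFormClass.slash_action_eq f _ ⟨γ, γ.2, rfl⟩
    have h2 := coe_smul_eq (γ : SL(2, ℤ)) ⟨z, hz⟩
    have h3 := congrFun h1 ⟨z, hz⟩
    rw [slash_two_apply] at h3
    simp only [Polynomial.eval_one, one_mul, Function.comp_apply]
    rw [← h2, ofComplex_apply, ofComplex_apply_of_im_pos hz]
    exact h3.symm
  obtain ⟨C, hC⟩ := prim_mobius_sub_const one_pos one_pos hg hg 1 1 _ _ _ _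
    (det_real (γ : SL(2, ℤ))) hrel
  refine ⟨C, fun z => ?_⟩
  have h4 := hC (z : ℂ) z.im_pos
  rw [primH1_apply, primH1_apply, coe_smul_eq]
  exact h4

/-- Uniqueness: every primitive of `f` on the upper half plane is `primH1 f` up to a constant. -/
theorem exists_eq_primH1_add_const {f : CuspForm (Gamma1 M) 2} {G : ℍ → ℂ}
    (hd : ∀ τ : ℍ, HasDerivAt (G ∘ ofComplex) (f τ) (τ : ℂ)) :
    ∃ C₀ : ℂ, ∀ z : ℍ, G z = primH1 f z + C₀ := by
  obtain ⟨C, hC⟩ := exists_const_of_hasDerivAt (φ := ⇑f ∘ ofComplex)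
    (F := G ∘ ofComplex) (F' := primH1 f ∘ ofComplex)
    (fun z hz => by
      have h := hd ⟨z, hz⟩
      rw [Function.comp_apply, ofComplex_apply_of_im_pos hz]
      exact h)
    (fun z hz => by
      have h := hasDerivAt_primH1 f ⟨z, hz⟩
      rw [Function.comp_apply, ofComplex_apply_of_im_pos hz]
      exact h)
  refine ⟨C, fun z => ?_⟩
  have h := hC (z : ℂ) z.im_pos
  rw [Function.comp_apply, Function.comp_apply, ofComplex_apply] at h
  rw [← h]
  ring

/-- A primitive of `f` tending to `0` at `i∞` is the canonical one. -/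
theorem eq_primH1_of_hasDerivAt {f : CuspForm (Gamma1 M) 2} {G : ℍ → ℂ}
    (hd : ∀ τ : ℍ, HasDerivAt (G ∘ ofComplex) (f τ) (τ : ℂ))
    (hlim : Tendsto G atImInfty (𝓝 0)) : G = primH1 f := by
  obtain ⟨C, hC⟩ := exists_eq_primH1_add_const hd
  have h1 : Tendsto (fun z : ℍ => G z - primH1 f z) atImInfty (𝓝 (0 - 0)) :=
    hlim.sub (tendsto_primH1 f)
  rw [sub_zero] at h1
  have h2 : Tendsto (fun z : ℍ => G z - primH1 f z) atImInfty (𝓝 C) :=
    tendsto_const_nhds.congr fun z => by rw [hC z]; ring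
  have hC0 : C = 0 := tendsto_nhds_unique h2 h1
  funext z
  rw [hC z, hC0, add_zero]

theorem primH1_add (f g : CuspForm (Gamma1 M) 2) (z : ℍ) :
    primH1 (f + g) z = primH1 f z + primH1 g z := by
  rw [primH1_apply, primH1_apply, primH1_apply,
    ← prim_add_fun one_pos (cuspLike_coe1 f) (cuspLike_coe1 g) 1 z.im_pos]
  rfl

theorem primH1_smul (c : ℂ) (f : CuspForm (Gamma1 M) 2) (z : ℍ) :
    primH1 (c • f) z = c * primH1 f z := by
  rw [primH1_apply, primH1_apply, ← prim_smul_fun one_pos (cuspLike_coe1 f) c 1 z.im_pos]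
  rfl

/-- The period homomorphism of `f` in terms of the canonical primitive, at any base point. -/
theorem periodHom_primH1_apply (f : CuspForm (Gamma1 M) 2) (γ : Gamma1 M) (z : ℍ) :
    (isEquivariantPrimitive_primH1 f).periodHom (Additive.ofMul γ) =
      primH1 f ((γ : SL(2, ℤ)) • z) - primH1 f z := by
  rw [IsEquivariantPrimitive.periodHom_apply]
  exact ((isEquivariantPrimitive_primH1 f).sub_eq_period γ z).symm

variable (M) in
/-- **The period map of `Γ₁(M)`** : `f ↦ (γ ↦ ∫_z^{γ z} f)`, `ℂ`-linear. -/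
noncomputable def periodMap1 : CuspForm (Gamma1 M) 2 →ₗ[ℂ] (Additive (Gamma1 M) →+ ℂ) where
  toFun f := (isEquivariantPrimitive_primH1 f).periodHom
  map_add' f g := by
    refine AddMonoidHom.ext fun γ => ?_
    have h := periodHom_primH1_apply (f + g) (Additive.toMul γ) UpperHalfPlane.I
    have hf := periodHom_primH1_apply f (Additive.toMul γ) UpperHalfPlane.I
    have hg := periodHom_primH1_apply g (Additive.toMul γ) UpperHalfPlane.I
    rw [ofMul_toMul] at h hf hg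
    rw [AddMonoidHom.add_apply, h, hf, hg, primH1_add, primH1_add]
    ring
  map_smul' c f := by
    refine AddMonoidHom.ext fun γ => ?_
    have h := periodHom_primH1_apply (c • f) (Additive.toMul γ) UpperHalfPlane.I
    have hf := periodHom_primH1_apply f (Additive.toMul γ) UpperHalfPlane.I
    rw [ofMul_toMul] at h hf
    rw [RingHom.id_apply, AddMonoidHom.smul_apply, h, hf, primH1_smul, primH1_smul, smul_eq_mul]
    ring

theorem periodMap1_eq (f : CuspForm (Gamma1 M) 2) :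
    periodMap1 M f = (isEquivariantPrimitive_primH1 f).periodHom := rfl

/-- **The period map at an arbitrary base point.** -/
theorem periodMap1_apply (f : CuspForm (Gamma1 M) 2) (γ : Gamma1 M) (z : ℍ) :
    periodMap1 M f (Additive.ofMul γ) = primH1 f ((γ : SL(2, ℤ)) • z) - primH1 f z :=
  periodHom_primH1_apply f γ z

end Fermat.Agent.S48.B.Period.Primitive1
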