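/-
PROJECT D (S48), part B, block B5, brick (E) [B-per] (helper5): the period map of `Γ₁(M)` is
injective.  If all periods of `f` vanish, the canonical primitive `primH1 f` is a modular form of
weight `0` for `Γ₁(M)` (invariant, holomorphic, bounded at every cusp), hence constant by Mathlib's
`ModularForm.eq_const_of_weight_zero`, hence `f = 0`.
-/
import Mathlib
import Fermat.Prelude.Def_ModularCurve_PeriodMap
import Fermat.Agent.S48.B.Period.Primitive1

set_option autoImplicit false

open UpperHalfPlane CongruenceSubgroup Filter Topology ModularCurve.Period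
open Matrix.SpecialLinearGroup
open scoped MatrixGroups ModularForm Manifold

namespace Fermat.Agent.S48.B.Period.Injective1

open Fermat.Agent.S48.B.Period.Primitive1

variable {M : ℕ}

/-- weight zero slash action of `SL(2, ℤ)`, as a formula -/
theorem slash_zero_apply (G : ℍ → ℂ) (σ : SL(2, ℤ)) (z : ℍ) :
    (G ∣[(0 : ℤ)] (mapGL ℝ σ)) z = G (σ • z) := by
  have h := ModularForm.SL_slash_apply (k := (0 : ℤ)) (f := G) σ z
  rw [neg_zero, zpow_zero, mul_one] at h
  exact h

theorem mdifferentiable_primH1 (f : CuspForm (Gamma1 M) 2) :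
    MDifferentiable 𝓘(ℂ) 𝓘(ℂ) (primH1 f) := by
  rw [UpperHalfPlane.mdifferentiable_iff]
  intro z hz
  exact (hasDerivAt_primH1 f ⟨z, hz⟩).differentiableAt.differentiableWithinAt

/-- invariance of the canonical primitive when the periods vanish -/
theorem primH1_smul_eq {f : CuspForm (Gamma1 M) 2} (h : periodMap1 M f = 0) (γ : Gamma1 M)
    (z : ℍ) : primH1 f ((γ : SL(2, ℤ)) • z) = primH1 f z := by
  have h1 := periodMap1_apply f γ z
  rw [h, AddMonoidHom.zero_apply] at h1
  exact (sub_eq_zero.mp h1.symm)

/-- the canonical primitive of a form with vanishing periods, as a modular form of weight zero -/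
noncomputable def primMF [NeZero M] (f : CuspForm (Gamma1 M) 2) (h : periodMap1 M f = 0) :
    ModularForm ((Gamma1 M).map (mapGL ℝ)) 0 where
  toFun := primH1 f
  slash_action_eq' := by
    rintro γ' ⟨γ, hγ, rfl⟩
    funext z
    rw [slash_zero_apply]
    exact primH1_smul_eq h ⟨γ, hγ⟩ z
  holo' := mdifferentiable_primH1 f
  bdd_at_cusps' {c} hc := by
    rw [OnePoint.isBoundedAt_iff_forall_SL2Z (hc.mono (Subgroup.map_le_range _ _))]
    intro δ _
    obtain ⟨L, hL⟩ := exists_tendsto_primH1_smul f δ
    have h1 : (primH1 f) ∣[(0 : ℤ)] δ = fun w : ℍ => primH1 f (δ • w) := by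
      funext w
      exact slash_zero_apply (primH1 f) δ w
    rw [h1]
    exact hL.isBigO_one ℝ

theorem coe_primMF [NeZero M] (f : CuspForm (Gamma1 M) 2) (h : periodMap1 M f = 0) :
    (primMF f h : ℍ → ℂ) = primH1 f := rfl

/-- **The period map of `Γ₁(M)` is injective.** -/
theorem eq_zero_of_periodMap1_eq_zero [NeZero M] (f : CuspForm (Gamma1 M) 2)
    (h : periodMap1 M f = 0) : f = 0 := by
  obtain ⟨c, hc⟩ := ModularForm.eq_const_of_weight_zero (primMF f h)
  rw [coe_primMF] at hc
  ext τ
  have h1 := hasDerivAt_primH1 f τ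
  have h2 : HasDerivAt (primH1 f ∘ ofComplex) 0 (τ : ℂ) := by
    have h3 : primH1 f ∘ ofComplex = fun _ : ℂ => c := by
      funext z
      rw [Function.comp_apply, hc, Function.const_apply]
    rw [h3]
    exact hasDerivAt_const (τ : ℂ) c
  rw [h1.unique h2]
  rfl

theorem periodMap1_injective [NeZero M] : Function.Injective (periodMap1 M) := by
  rw [← LinearMap.ker_eq_bot, LinearMap.ker_eq_bot']
  exact fun f hf => eq_zero_of_periodMap1_eq_zero f hf

end Fermat.Agent.S48.B.Period.Injective1
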