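/-
PROJECT D (S48), part B, block B5, brick (E) [B-per] (helper5): the periods of a weight-two cusp
form on `Γ₁(M)` vanish on the parabolic elements (twin of `S21/Parabolic`; the group theory
`exists_conj_smul` of main is level-free and reused).
-/
import Mathlib
import Fermat.Prelude.Def_ModularCurve_PeriodMap
import Fermat.Agent.S21.Parabolic
import Fermat.Agent.S48.B.Period.Primitive1

set_option autoImplicit false

open UpperHalfPlane CongruenceSubgroup Filter Topology ModularGroup ModularCurve.Period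
open scoped MatrixGroups

namespace Fermat.Agent.S48.B.Period.Parabolic1

open Fermat.Agent.S21.Parabolic Fermat.Agent.S48.B.Period.Primitive1

/-- The period of an equivariant primitive (for any subgroup `Γ` of `SL(2, ℤ)`) with limits at all
cusps vanishes on parabolic elements. -/
theorem period_eq_zero_of_parabolic {Γ : Subgroup SL(2, ℤ)} {F : ℍ → ℂ}
    (hF : IsEquivariantPrimitive Γ F)
    (hlim : ∀ δ : SL(2, ℤ), ∃ L : ℂ, Tendsto (fun w : ℍ => F (δ • w)) atImInfty (𝓝 L))
    (γ : Γ)
    (hγ : ((γ : SL(2, ℤ)) : Matrix (Fin 2) (Fin 2) ℤ).trace ^ 2 = 4) :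
    hF.period γ = 0 := by
  obtain ⟨δ, k, hk⟩ := exists_conj_smul (γ : SL(2, ℤ)) hγ
  obtain ⟨L, hL⟩ := hlim δ
  have h1 : ∀ w : ℍ, F (δ • (T ^ k • w)) - F (δ • w) = hF.period γ := by
    intro w
    rw [← hk w]
    exact hF.sub_eq_period γ (δ • w)
  have h2 : Tendsto (fun w : ℍ => F (δ • (T ^ k • w)) - F (δ • w)) atImInfty (𝓝 (L - L)) := by
    refine Tendsto.sub ?_ hL
    exact hL.comp (tendsto_T_zpow_smul k)
  have h3 : Tendsto (fun _ : ℍ => hF.period γ) atImInfty (𝓝 (L - L)) := by
    refine h2.congr fun w => h1 w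
  have h4 := tendsto_nhds_unique h3 tendsto_const_nhds
  rw [sub_self] at h4
  exact h4.symm

variable {M : ℕ}

/-- **The period map of `Γ₁(M)` takes values in the parabolic homomorphisms.** -/
theorem periodMap1_mem_parabolicHoms [NeZero M] (f : CuspForm (Gamma1 M) 2) :
    periodMap1 M f ∈ parabolicHoms ℂ (Gamma1 M) ℂ := by
  rw [mem_parabolicHoms_iff]
  intro γ hγ
  rw [periodMap1_eq, IsEquivariantPrimitive.periodHom_apply]
  exact period_eq_zero_of_parabolic (isEquivariantPrimitive_primH1 f)
    (exists_tendsto_primH1_smul f) γ hγ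

end Fermat.Agent.S48.B.Period.Parabolic1
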