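/-
PROJECT D (S48), part B, block B5, brick (E) [B-per] (helper5): the seam `PeriodSeam1 M` of
`Defs/Spec.lean` from the period map `periodMap1 M` (`Primitive1`), its parabolicity (`Parabolic1`),
its injectivity (`Injective1`) and the equivariance for coset data (`CosetEquivariant M`, from
helper18's level-free `Period/Equivariance1.lean`).
-/
import Mathlib
import Fermat.Agent.S48.B.Defs.Spec
import Fermat.Agent.S48.B.Period.Parabolic1
import Fermat.Agent.S48.B.Period.Injective1
import Fermat.Agent.S48.B.Period.Equivariance1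

set_option autoImplicit false

open UpperHalfPlane CongruenceSubgroup ModularCurve.Period
open scoped MatrixGroups ModularForm

namespace Fermat.Agent.S48.B.Period.Seam1

open Fermat.Agent.S30.Hecke.DoubleCoset Fermat.Agent.S30.Hecke.CharProduct
open Fermat.Agent.S48.B.Defs.Spec
open Fermat.Agent.S48.B.Period.Primitive1 Fermat.Agent.S48.B.Period.Parabolic1
  Fermat.Agent.S48.B.Period.Injective1 Fermat.Agent.S48.B.Period.Equivariance1

/-- the equivariance clause of `PeriodSeam1 M`, for the period map `periodMap1 M` -/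
def CosetEquivariant (M : ℕ) : Prop :=
  ∀ {X : Type} [Fintype X] (D : CosetData (incl (Gamma1 M)) X) (f f' : CuspForm (Gamma1 M) 2),
    (∀ x, 0 < (D.rep x).det.val) → (⇑f' = ∑ x, ⇑f ∣[(2 : ℤ)] D.rep x) →
      periodMap1 M f' = D.heckeHom (periodMap1 M f)

/-- **seam [B-per]** from the equivariance for coset data -/
theorem periodSeam1_of (M : ℕ) [NeZero M] (h : CosetEquivariant M) : PeriodSeam1 M :=
  ⟨periodMap1 M, periodMap1_mem_parabolicHoms, eq_zero_of_periodMap1_eq_zero, h⟩

/-- the period map `periodMap1 M` is equivariant for every coset datum over `Γ₁(M)` -/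
theorem cosetEquivariant (M : ℕ) : CosetEquivariant M := fun D f f' hdet h =>
  periodMap_cosetData_of primH1 (fun f => periodMap1 M f) hasDerivAt_primH1 periodMap1_apply
    D f f' hdet h

/-- the literal form of the equivariance -/
theorem periodMap1_cosetData {M : ℕ} {X : Type} [Fintype X] (D : CosetData (incl (Gamma1 M)) X)
    (f f' : CuspForm (Gamma1 M) 2) (hdet : ∀ x, 0 < (D.rep x).det.val)
    (h : (⇑f' : ℍ → ℂ) = ∑ x, ⇑f ∣[(2 : ℤ)] D.rep x) :
    periodMap1 M f' = D.heckeHom (periodMap1 M f) :=
  cosetEquivariant M D f f' hdet h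

/-- **seam [B-per] (EASY half of S21') IS A THEOREM** -/
theorem periodSeam1 (M : ℕ) [NeZero M] : PeriodSeam1 M :=
  periodSeam1_of M (cosetEquivariant M)

end Fermat.Agent.S48.B.Period.Seam1
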