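/-
Project D (S48, Deligne–Serre), part B, block B5, seam [B-per], third clause of `PeriodSeam1`:
the period map is equivariant for EVERY coset datum with representatives of positive determinant.

Level-free engine (any subgroup `Γ ≤ SL(2, ℤ)`, any primitives):

* `hasDerivAt_moebius` : `d/dz (α z) = det α / (c z + d)²`;
* `hasDerivAt_comp_smul` : if `F' = f` on `ℍ` and `0 < det α` then `(z ↦ F (α • z))' = f ∣[2] α`;
* `hasDerivAt_sum_smul` : the same for `z ↦ ∑ x, F (rep x • z)` and `∑ x, f ∣[2] rep x`;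
* **`heckeHom_eq_of_primitives`** : if `F`, `F'` are primitives of `f`, `f' = ∑ x, f ∣[2] D.rep x`
  with `Γ`-increments `φ`, `φ'`, then `φ' = D.heckeHom φ` (`DoubleCoset.sum_smul_sub`; the constant
  `∑ x, F (rep x • z) - F' z` cancels in the increments);
* **`periodMap_cosetData_of`** : the third clause of `PeriodSeam1` for any family of primitives
  `prim f` and the period map `P f g = prim f (g • z) - prim f z`.
-/
import Mathlib
import Fermat.Agent.S22.Primitive
import Fermat.Agent.S30.Hecke.DoubleCoset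
import Fermat.Agent.S30.Hecke.CharProduct

set_option autoImplicit false

open UpperHalfPlane ModularForm Matrix.SpecialLinearGroup
open scoped MatrixGroups ModularForm

noncomputable section

namespace Fermat.Agent.S48.B.Period.Equivariance1

open Fermat.Agent.S30.Hecke.DoubleCoset Fermat.Agent.S30.Hecke.CharProduct

/-! ### the derivative of a Möbius transformation -/

theorem hasDerivAt_moebius (α : GL (Fin 2) ℝ) {z : ℂ} (hz : denom α z ≠ 0) :
    HasDerivAt (fun w : ℂ => num α w / denom α w) ((α.det.val : ℂ) / denom α z ^ 2) z := by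
  have hn : HasDerivAt (fun w : ℂ => num α w) ((α 0 0 : ℝ) : ℂ) z := by
    have := ((hasDerivAt_id z).const_mul ((α 0 0 : ℝ) : ℂ)).add_const ((α 0 1 : ℝ) : ℂ)
    simpa [num] using this
  have hd : HasDerivAt (fun w : ℂ => denom α w) ((α 1 0 : ℝ) : ℂ) z := by
    have := ((hasDerivAt_id z).const_mul ((α 1 0 : ℝ) : ℂ)).add_const ((α 1 1 : ℝ) : ℂ)
    simpa [denom] using this
  have h := hn.div hd hz
  have e : (α.det.val : ℂ) / denom α z ^ 2 =
      (((α 0 0 : ℝ) : ℂ) * denom α z - num α z * ((α 1 0 : ℝ) : ℂ)) / denom α z ^ 2 := by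
    congr 1
    rw [Matrix.GeneralLinearGroup.val_det_apply, Matrix.det_fin_two]
    simp only [num, denom]
    push_cast
    ring
  rw [e]
  exact h

/-- if `F' = f` on `ℍ` and `0 < det α` then `z ↦ F (α • z)` has derivative `f ∣[2] α` -/
theorem hasDerivAt_comp_smul (α : GL (Fin 2) ℝ) (hα : 0 < α.det.val) {F f : ℍ → ℂ}
    (hF : ∀ τ : ℍ, HasDerivAt (F ∘ ofComplex) (f τ) (τ : ℂ)) (τ : ℍ) :
    HasDerivAt ((fun z : ℍ => F (α • z)) ∘ ofComplex) ((f ∣[(2 : ℤ)] α) τ) (τ : ℂ) := by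
  have hden : denom α (τ : ℂ) ≠ 0 := denom_ne_zero α τ
  have hin := hasDerivAt_moebius α hden
  have hpt : num α (τ : ℂ) / denom α (τ : ℂ) = ((α • τ : ℍ) : ℂ) := (coe_smul_of_det_pos hα τ).symm
  have hout : HasDerivAt (F ∘ ofComplex) (f (α • τ))
      ((fun w : ℂ => num α w / denom α w) (τ : ℂ)) := by
    show HasDerivAt (F ∘ ofComplex) (f (α • τ)) (num α (τ : ℂ) / denom α (τ : ℂ))
    rw [hpt]
    exact hF (α • τ)
  have hcomp := HasDerivAt.comp (h₂ := F ∘ ofComplex) (τ : ℂ) hout hin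
  have hval : (f ∣[(2 : ℤ)] α) τ = f (α • τ) * ((α.det.val : ℂ) / denom α (τ : ℂ) ^ 2) := by
    rw [ModularForm.slash_apply]
    have hσ : σ α (f (α • τ)) = f (α • τ) := by
      simp only [σ, if_pos hα]
      rfl
    rw [hσ, abs_of_pos hα]
    have h1 : (2 : ℤ) - 1 = 1 := by norm_num
    rw [h1, zpow_one, zpow_neg, div_eq_mul_inv, mul_assoc]
    rfl
  rw [hval]
  refine hcomp.congr_of_eventuallyEq ?_
  filter_upwards [(Complex.continuous_im.isOpen_preimage _ isOpen_Ioi).mem_nhds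
    (show (τ : ℂ) ∈ Complex.im ⁻¹' Set.Ioi 0 from τ.im_pos)] with z hz
  have hz' : 0 < z.im := hz
  simp only [Function.comp_apply]
  rw [ofComplex_apply_of_im_pos hz']
  have h2 : num α z / denom α z = ((α • (⟨z, hz'⟩ : ℍ) : ℍ) : ℂ) :=
    (coe_smul_of_det_pos hα ⟨z, hz'⟩).symm
  rw [h2, ofComplex_apply]

/-- the sum over a finite family of matrices of positive determinant -/
theorem hasDerivAt_sum_smul {X : Type*} [Fintype X] (rep : X → GL (Fin 2) ℝ)
    (hdet : ∀ x, 0 < (rep x).det.val) {F f : ℍ → ℂ}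
    (hF : ∀ τ : ℍ, HasDerivAt (F ∘ ofComplex) (f τ) (τ : ℂ)) (τ : ℍ) :
    HasDerivAt ((fun z : ℍ => ∑ x, F (rep x • z)) ∘ ofComplex)
      ((∑ x, f ∣[(2 : ℤ)] rep x) τ) (τ : ℂ) := by
  have h1 : HasDerivAt (fun w : ℂ => ∑ x, ((fun z : ℍ => F (rep x • z)) ∘ ofComplex) w)
      (∑ x, (f ∣[(2 : ℤ)] rep x) τ) (τ : ℂ) :=
    HasDerivAt.fun_sum fun x _ => hasDerivAt_comp_smul (rep x) (hdet x) hF τ
  rw [Finset.sum_apply]
  exact h1

/-! ### the increments -/

variable {Γ : Subgroup SL(2, ℤ)} {X : Type*} [Fintype X]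

/-- **the period homomorphism of `∑ x, f ∣[2] D.rep x` is `D.heckeHom` of the period homomorphism
of `f`**, for any primitives `F` of `f`, `F'` of `f'` with `Γ`-increments `φ`, `φ'` -/
theorem heckeHom_eq_of_primitives (D : CosetData (incl Γ) X) (hdet : ∀ x, 0 < (D.rep x).det.val)
    {f f' F F' : ℍ → ℂ} (hF : ∀ τ : ℍ, HasDerivAt (F ∘ ofComplex) (f τ) (τ : ℂ))
    (hF' : ∀ τ : ℍ, HasDerivAt (F' ∘ ofComplex) (f' τ) (τ : ℂ))
    (φ φ' : Additive Γ →+ ℂ)
    (hφ : ∀ (g : Γ) (z : ℍ), F ((g : SL(2, ℤ)) • z) - F z = φ (Additive.ofMul g))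
    (hφ' : ∀ (g : Γ) (z : ℍ), F' ((g : SL(2, ℤ)) • z) - F' z = φ' (Additive.ofMul g))
    (h : f' = ∑ x, f ∣[(2 : ℤ)] D.rep x) : φ' = D.heckeHom φ := by
  set G : ℍ → ℂ := fun z => ∑ x, F (D.rep x • z) with hG
  have hGd : ∀ τ : ℍ, HasDerivAt (G ∘ ofComplex) (f' τ) (τ : ℂ) := fun τ => by
    rw [h]
    exact hasDerivAt_sum_smul D.rep hdet hF τ
  obtain ⟨C, hC⟩ := Fermat.Agent.S22.Primitive.exists_const_of_hasDerivAt
    (φ := f' ∘ ofComplex) (F := G ∘ ofComplex) (F' := F' ∘ ofComplex)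
    (fun z hz => by
      have := hGd ⟨z, hz⟩
      simpa [ofComplex_apply_of_im_pos hz] using this)
    (fun z hz => by
      have := hF' ⟨z, hz⟩
      simpa [ofComplex_apply_of_im_pos hz] using this)
  have hC' : ∀ z : ℍ, G z - F' z = C := fun z => by
    have := hC (z : ℂ) z.im_pos
    simpa using this
  refine AddMonoidHom.ext fun g' => ?_
  obtain ⟨g, rfl⟩ := Additive.ofMul.surjective g'
  have z : ℍ := UpperHalfPlane.I
  have h1 := D.sum_smul_sub F φ (fun γ w => hφ γ w) g z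
  have h2 := hφ' g z
  have h3 := hC' ((g : SL(2, ℤ)) • z)
  have h4 := hC' z
  have h5 : G ((g : SL(2, ℤ)) • z) = ∑ x, F (D.rep x • incl Γ g • z) := rfl
  rw [← h2, ← h1, ← h5]
  show F' ((g : SL(2, ℤ)) • z) - F' z = G ((g : SL(2, ℤ)) • z) - G z
  linear_combination h4 - h3

/-- **the third clause of `PeriodSeam1`**, for any family of primitives `prim f` of the cusp forms
of weight two on `Γ` and the period map `P` they define -/
theorem periodMap_cosetData_of (prim : CuspForm Γ 2 → ℍ → ℂ)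
    (P : CuspForm Γ 2 → (Additive Γ →+ ℂ))
    (hprim : ∀ (f : CuspForm Γ 2) (τ : ℍ), HasDerivAt (prim f ∘ ofComplex) (f τ) (τ : ℂ))
    (hP : ∀ (f : CuspForm Γ 2) (g : Γ) (z : ℍ),
      P f (Additive.ofMul g) = prim f ((g : SL(2, ℤ)) • z) - prim f z)
    (D : CosetData (incl Γ) X) (f f' : CuspForm Γ 2) (hdet : ∀ x, 0 < (D.rep x).det.val)
    (h : (⇑f' : ℍ → ℂ) = ∑ x, (⇑f : ℍ → ℂ) ∣[(2 : ℤ)] D.rep x) : P f' = D.heckeHom (P f) :=
  heckeHom_eq_of_primitives D hdet (hprim f) (hprim f') (P f) (P f')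
    (fun g z => (hP f g z).symm) (fun g z => (hP f' g z).symm) h

end Fermat.Agent.S48.B.Period.Equivariance1
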